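/-
S48 (Deligne–Serre), chapter (DS-e), step (e5-irr): the IRREDUCIBILITY step as an abstract
standalone theorem.  A two-dimensional complex representation with finite image whose Frobenius
traces satisfy Rankin's sharp bound `∑ ‖a_p‖² p^{-s} ≤ log (1/(s-1)) + C`, and whose Frobenius
elements satisfy Chebotarev's lower density bound (ε-form) for conjugation-stable subsets of the
image, is irreducible.
-/
import Mathlib
import Fermat.Prelude.Def_Deformations_MatrixRepresentation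
import Fermat.Prelude.Def_GaloisRep_Residual

set_option autoImplicit false

namespace Fermat.Agent.DS.Endgame.Irred87

open Matrix

/-! ### Part A: algebra — a stable line forces `∑ ‖tr g‖² ≥ 2 #G` -/

section Algebra

/-- An eigenvalue `c` of a `2 × 2` matrix satisfies `c² - tr · c + det = 0`. -/
theorem eigen_quadratic (M : Matrix (Fin 2) (Fin 2) ℂ) (v : Fin 2 → ℂ) (hv : v ≠ 0) (c : ℂ)
    (h : M *ᵥ v = c • v) : c ^ 2 - M.trace * c + M.det = 0 := by
  have h0 : (M - c • (1 : Matrix (Fin 2) (Fin 2) ℂ)) *ᵥ v = 0 := by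
    rw [Matrix.sub_mulVec, h, Matrix.smul_mulVec, Matrix.one_mulVec, sub_self]
  have hdet : (M - c • (1 : Matrix (Fin 2) (Fin 2) ℂ)).det = 0 :=
    Matrix.exists_mulVec_eq_zero_iff.mp ⟨v, hv, h0⟩
  rw [Matrix.det_fin_two] at hdet
  rw [Matrix.trace_fin_two, Matrix.det_fin_two]
  simp only [Matrix.sub_apply, Matrix.smul_apply, Matrix.one_apply_eq, smul_eq_mul, mul_one,
    Matrix.one_apply_ne (show (0 : Fin 2) ≠ 1 by decide),
    Matrix.one_apply_ne (show (1 : Fin 2) ≠ 0 by decide), mul_zero, sub_zero] at hdet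
  linear_combination hdet

/-- If `a`, `b` are complex numbers of norm one then `‖a + b‖² = 2 + 2 Re (a / b)`. -/
theorem normSq_add_of_norm_one {a b : ℂ} (ha : ‖a‖ = 1) (hb : ‖b‖ = 1) :
    ‖a + b‖ ^ 2 = 2 + 2 * (a / b).re := by
  have hb' : Complex.normSq b = 1 := by rw [← Complex.sq_norm, hb, one_pow]
  have ha' : Complex.normSq a = 1 := by rw [← Complex.sq_norm, ha, one_pow]
  have hinv : b⁻¹ = (starRingEnd ℂ) b := by
    rw [Complex.inv_def, hb', inv_one, Complex.ofReal_one, mul_one]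
  rw [Complex.sq_norm, Complex.normSq_add, ha', hb', div_eq_mul_inv, hinv]
  ring

variable (G : Subgroup (GL (Fin 2) ℂ)) [Fintype G]

/-- **Algebraic heart of the irreducibility step**: a finite subgroup of `GL₂(ℂ)` stabilising a
line has `∑_g ‖tr g‖² ≥ 2 #G`. -/
theorem two_mul_card_le_sum_trace (v : Fin 2 → ℂ) (hv : v ≠ 0)
    (hstab : ∀ g ∈ G, ∃ c : ℂ, ((g : GL (Fin 2) ℂ) : Matrix (Fin 2) (Fin 2) ℂ) *ᵥ v = c • v) :
    2 * (Fintype.card G : ℝ) ≤
      ∑ g : G, ‖((g : GL (Fin 2) ℂ) : Matrix (Fin 2) (Fin 2) ℂ).trace‖ ^ 2 := by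
  classical
  obtain ⟨i, hi⟩ : ∃ i, v i ≠ 0 := by
    by_contra hcon
    simp only [not_exists, not_not] at hcon
    exact hv (funext hcon)
  -- the eigenvalue character
  set e : G → ℂ := fun g => (((g : GL (Fin 2) ℂ) : Matrix (Fin 2) (Fin 2) ℂ) *ᵥ v) i / v i
    with he_def
  have he : ∀ g : G, ((g : GL (Fin 2) ℂ) : Matrix (Fin 2) (Fin 2) ℂ) *ᵥ v = e g • v := by
    intro g
    obtain ⟨c, hc⟩ := hstab g g.2
    have : e g = c := by
      simp only [he_def, hc, Pi.smul_apply, smul_eq_mul]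
      field_simp
    rw [this, hc]
  have he_eq : ∀ (g : G) (c : ℂ),
      ((g : GL (Fin 2) ℂ) : Matrix (Fin 2) (Fin 2) ℂ) *ᵥ v = c • v → e g = c := by
    intro g c hc
    simp only [he_def, hc, Pi.smul_apply, smul_eq_mul]
    field_simp
  have he_one : e 1 = 1 := he_eq 1 1 (by simp)
  have he_mul : ∀ g h : G, e (g * h) = e g * e h := by
    intro g h
    apply he_eq
    have : (((g * h : G) : GL (Fin 2) ℂ) : Matrix (Fin 2) (Fin 2) ℂ) =
        ((g : GL (Fin 2) ℂ) : Matrix (Fin 2) (Fin 2) ℂ) *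
          ((h : GL (Fin 2) ℂ) : Matrix (Fin 2) (Fin 2) ℂ) := by
      simp
    rw [this, ← Matrix.mulVec_mulVec, he h, Matrix.mulVec_smul, he g, smul_smul, mul_comm]
  let χ₁ : G →* ℂ := ⟨⟨e, he_one⟩, he_mul⟩
  let d : G →* ℂ :=
    { toFun := fun g => ((g : GL (Fin 2) ℂ) : Matrix (Fin 2) (Fin 2) ℂ).det
      map_one' := by simp
      map_mul' := fun g h => by simp }
  -- finite order ⟹ norm one
  have hnorm : ∀ (φ : G →* ℂ) (g : G), ‖φ g‖ = 1 := by
    intro φ g
    have hpow : φ g ^ orderOf g = 1 := by rw [← map_pow, pow_orderOf_eq_one, map_one]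
    exact Complex.norm_eq_one_of_pow_eq_one hpow (orderOf_pos g).ne'
  have he_norm : ∀ g, ‖e g‖ = 1 := hnorm χ₁
  have hd_norm : ∀ g, ‖d g‖ = 1 := hnorm d
  have he_ne : ∀ g, e g ≠ 0 := fun g h0 => by
    have := he_norm g
    rw [h0, norm_zero] at this
    exact zero_ne_one this
  have hd_ne : ∀ g, d g ≠ 0 := fun g h0 => by
    have := hd_norm g
    rw [h0, norm_zero] at this
    exact zero_ne_one this
  -- trace = e + d / e
  have htr : ∀ g : G, ((g : GL (Fin 2) ℂ) : Matrix (Fin 2) (Fin 2) ℂ).trace = e g + d g / e g := by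
    intro g
    have hq := eigen_quadratic _ v hv (e g) (he g)
    have hne := he_ne g
    field_simp
    change _ = e g ^ 2 + ((g : GL (Fin 2) ℂ) : Matrix (Fin 2) (Fin 2) ℂ).det
    linear_combination -hq
  -- the ratio character ψ = e² / d
  let ψ : G →* ℂ :=
    { toFun := fun g => e g ^ 2 / d g
      map_one' := by simp [he_one]
      map_mul' := fun g h => by
        rw [he_mul, map_mul]
        have := hd_ne g
        have := hd_ne h
        field_simp }
  have hterm : ∀ g : G,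
      ‖((g : GL (Fin 2) ℂ) : Matrix (Fin 2) (Fin 2) ℂ).trace‖ ^ 2 = 2 + 2 * (ψ g).re := by
    intro g
    rw [htr g]
    have h2 : ‖d g / e g‖ = 1 := by rw [norm_div, hd_norm, he_norm, div_one]
    rw [normSq_add_of_norm_one (he_norm g) h2]
    congr 3
    change e g / (d g / e g) = e g ^ 2 / d g
    have := he_ne g
    have := hd_ne g
    field_simp
  have hsum : 0 ≤ (∑ g : G, ψ g).re := by
    by_cases hψ : ψ = 1
    · rw [hψ]
      simp
    · rw [sum_hom_units_eq_zero ψ hψ]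
      simp
  calc 2 * (Fintype.card G : ℝ) ≤ 2 * (Fintype.card G : ℝ) + 2 * (∑ g : G, ψ g).re := by linarith
    _ = ∑ g : G, (2 + 2 * (ψ g).re) := by
      rw [Finset.sum_add_distrib, Complex.re_sum, Finset.mul_sum]
      simp [mul_comm]
    _ = _ := Finset.sum_congr rfl fun g _ => (hterm g).symm

end Algebra

/-! ### Part B: a reducible two-dimensional representation has a stable line -/

section Line

variable {Γ : Type} [Group Γ]

theorem exists_stable_line_of_not_irreducible (ρ : Γ →* GL (Fin 2) ℂ)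
    (h : ¬ (Deformation.matrixRepresentation ρ).IsIrreducible) :
    ∃ v : Fin 2 → ℂ, v ≠ 0 ∧ ∀ γ : Γ, ∃ c : ℂ,
      ((ρ γ : GL (Fin 2) ℂ) : Matrix (Fin 2) (Fin 2) ℂ) *ᵥ v = c • v := by
  classical
  set σ := Deformation.matrixRepresentation ρ with hσ
  -- there is a subrepresentation which is neither `⊥` nor `⊤`
  have hnontriv : Nontrivial (Subrepresentation σ) := by
    refine ⟨⟨⊥, ⊤, fun hbt => ?_⟩⟩
    have h1 : (⊥ : Subrepresentation σ).toSubmodule = (⊤ : Subrepresentation σ).toSubmodule := by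
      rw [hbt]
    have h2 : (⊥ : Submodule ℂ (Fin 2 → ℂ)) = ⊤ := h1
    exact bot_ne_top h2
  obtain ⟨W, hWbot, hWtop⟩ : ∃ W : Subrepresentation σ, W ≠ ⊥ ∧ W ≠ ⊤ := by
    by_contra hcon
    apply h
    refine { toNontrivial := hnontriv, eq_bot_or_eq_top := fun W => ?_ }
    by_contra hW
    exact hcon ⟨W, fun hb => hW (Or.inl hb), fun ht => hW (Or.inr ht)⟩
  have hWbot' : W.toSubmodule ≠ ⊥ := fun hb =>
    hWbot (Subrepresentation.toSubmodule_injective hb)
  have hWtop' : W.toSubmodule ≠ ⊤ := fun ht =>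
    hWtop (Subrepresentation.toSubmodule_injective ht)
  -- its dimension is one
  have hpos : 0 < Module.finrank ℂ W.toSubmodule := by
    rw [Module.finrank_pos_iff_exists_ne_zero]
    obtain ⟨x, hx, hx0⟩ := Submodule.exists_mem_ne_zero_of_ne_bot hWbot'
    exact ⟨⟨x, hx⟩, fun hh => hx0 (congrArg Subtype.val hh)⟩
  have hlt : Module.finrank ℂ W.toSubmodule < 2 := by
    have := Submodule.finrank_lt hWtop'
    simpa using this
  have hone : Module.finrank ℂ W.toSubmodule = 1 := by omega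
  obtain ⟨⟨v, hvW⟩, hv0, hspan⟩ := finrank_eq_one_iff'.mp hone
  refine ⟨v, fun hh => hv0 (Subtype.ext hh), fun γ => ?_⟩
  have hmem : σ γ v ∈ W.toSubmodule := W.apply_mem_toSubmodule γ hvW
  obtain ⟨c, hc⟩ := hspan ⟨σ γ v, hmem⟩
  refine ⟨c, ?_⟩
  have hc' : c • v = σ γ v := congrArg Subtype.val hc
  rw [hc', hσ, Deformation.matrixRepresentation_apply]
  rfl

end Line

/-! ### Part C: the density contradiction -/

section Density

open Finset

/-- **Abstract density contradiction.**  `T ≥ 0` a function on a finite set `G` with mean value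
`≥ 2`; `F : ℕ → G` ("Frobenius"); if every level set of `T` has lower density (ε-form) at least its
proportion, then `∑_p T (F p) p^{-s} ≤ log (1/(s-1)) + C` is impossible. -/
theorem density_contradiction {G : Type*} [Fintype G] [Nonempty G] (T : G → ℝ) (hT0 : ∀ g, 0 ≤ T g)
    (hT2 : 2 * (Fintype.card G : ℝ) ≤ ∑ g : G, T g)
    (good : Set ℕ) (F : ℕ → G)
    (hcheb : ∀ t : ℝ, ∀ ε > 0, ∃ B : ℝ, ∀ s ∈ Set.Ioc (1 : ℝ) 2, ∃ P : Finset ℕ,
      (∀ p ∈ P, p ∈ good ∧ T (F p) = t) ∧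
        ((((Finset.univ.filter (fun g => T g = t)).card : ℝ) / Fintype.card G - ε) *
          Real.log (1 / (s - 1)) - B ≤ ∑ p ∈ P, (p : ℝ) ^ (-s)))
    (hrankin : ∃ C : ℝ, ∀ s ∈ Set.Ioc (1 : ℝ) 2, ∀ P : Finset ℕ, (∀ p ∈ P, p ∈ good) →
      ∑ p ∈ P, T (F p) * (p : ℝ) ^ (-s) ≤ Real.log (1 / (s - 1)) + C) : False := by
  classical
  obtain ⟨C, hC⟩ := hrankin
  have hcard : (0 : ℝ) < Fintype.card G := by exact_mod_cast Fintype.card_pos
  set ts : Finset ℝ := Finset.univ.image T with hts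
  have hts0 : ∀ t ∈ ts, 0 ≤ t := by
    intro t ht
    obtain ⟨g, -, rfl⟩ := Finset.mem_image.mp ht
    exact hT0 g
  set τ : ℝ := ∑ t ∈ ts, t with hτ
  have hτ0 : 0 ≤ τ := Finset.sum_nonneg hts0
  set ε : ℝ := 1 / (2 * (τ + 1)) with hε
  have hεpos : 0 < ε := by positivity
  have hετ : ε * τ ≤ 1 / 2 := by
    rw [hε, div_mul_eq_mul_div, one_mul, div_le_div_iff₀ (by positivity) (by norm_num)]
    nlinarith
  choose B hB using fun t => hcheb t ε hεpos
  set B' : ℝ := ∑ t ∈ ts, t * B t with hB'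
  -- the point `s` at which we get the contradiction
  set M : ℝ := max (2 * (B' + C) + 1) 0 with hM
  have hM0 : 0 ≤ M := le_max_right _ _
  have hMgt : 2 * (B' + C) < M := lt_of_lt_of_le (by linarith) (le_max_left _ _)
  set s : ℝ := 1 + Real.exp (-M) with hs
  have hs_mem : s ∈ Set.Ioc (1 : ℝ) 2 := by
    refine ⟨by rw [hs]; linarith [Real.exp_pos (-M)], ?_⟩
    have : Real.exp (-M) ≤ 1 := Real.exp_le_one_iff.mpr (by linarith)
    rw [hs]; linarith
  have hL : Real.log (1 / (s - 1)) = M := by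
    rw [hs, add_sub_cancel_left, one_div, ← Real.exp_neg, neg_neg, Real.log_exp]
  choose P hP using fun t => hB t s hs_mem
  -- the `P t` are pairwise disjoint
  have hdisj : (ts : Set ℝ).PairwiseDisjoint P := by
    intro t _ t' _ htt'
    rw [Function.onFun, Finset.disjoint_left]
    intro p hp hp'
    exact htt' (((hP t).1 p hp).2.symm.trans ((hP t').1 p hp').2)
  have hgood : ∀ p ∈ ts.biUnion P, p ∈ good := by
    intro p hp
    obtain ⟨t, -, hpt⟩ := Finset.mem_biUnion.mp hp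
    exact ((hP t).1 p hpt).1
  have hupper := hC s hs_mem (ts.biUnion P) hgood
  rw [Finset.sum_biUnion hdisj, hL] at hupper
  -- lower bound for each level
  have hlower : ∀ t ∈ ts,
      t * ((((Finset.univ.filter (fun g => T g = t)).card : ℝ) / Fintype.card G - ε) * M - B t) ≤
        ∑ p ∈ P t, T (F p) * (p : ℝ) ^ (-s) := by
    intro t ht
    have h1 := (hP t).2
    rw [hL] at h1
    have h2 : ∑ p ∈ P t, T (F p) * (p : ℝ) ^ (-s) = t * ∑ p ∈ P t, (p : ℝ) ^ (-s) := by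
      rw [Finset.mul_sum]
      exact Finset.sum_congr rfl fun p hp => by rw [((hP t).1 p hp).2]
    rw [h2]
    exact mul_le_mul_of_nonneg_left h1 (hts0 t ht)
  have hsumlower := Finset.sum_le_sum hlower
  -- the fibre count
  have hfib : ∑ t ∈ ts, t * (((Finset.univ.filter (fun g => T g = t)).card : ℝ)) =
      ∑ g : G, T g := by
    have := Finset.sum_comp (s := (Finset.univ : Finset G)) (fun t : ℝ => t) T
    simp only [nsmul_eq_mul] at this
    rw [this]
    exact Finset.sum_congr rfl fun t _ => mul_comm _ _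
  have hexpand : ∑ t ∈ ts,
      t * ((((Finset.univ.filter (fun g => T g = t)).card : ℝ) / Fintype.card G - ε) * M - B t) =
      ((∑ g : G, T g) / Fintype.card G - ε * τ) * M - B' := by
    rw [← hfib, hB', hτ, Finset.sum_div, Finset.mul_sum, ← Finset.sum_sub_distrib,
      Finset.sum_mul, ← Finset.sum_sub_distrib]
    refine Finset.sum_congr rfl fun t _ => ?_
    ring
  rw [hexpand] at hsumlower
  have hmean : 2 ≤ (∑ g : G, T g) / Fintype.card G := by
    rw [le_div_iff₀ hcard]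
    exact hT2
  have hfinal : (2 - 1 / 2) * M - B' ≤ M + C := by
    refine le_trans ?_ (hsumlower.trans hupper)
    have : (2 - 1 / 2) * M ≤ ((∑ g : G, T g) / Fintype.card G - ε * τ) * M :=
      mul_le_mul_of_nonneg_right (by linarith) hM0
    linarith
  linarith

end Density

/-! ### Part D: the irreducibility criterion -/

section Main

variable {Γ : Type} [Group Γ]

/-- **(e5-irr) Irreducibility from Chebotarev (lower density, ε-form) and Rankin (sharp).**
`ρ : Γ → GL₂(ℂ)` with finite image; `frob p ∈ Γ` a "Frobenius element" for every `p ∈ good`.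
If every conjugation-stable subset `S` of the image has lower Dirichlet density `≥ #S / #Im ρ`
(in the ε-form), and `∑_{p} ‖tr ρ(frob p)‖² p^{-s} ≤ log (1/(s-1)) + C` on `(1,2]`, then `ρ` is
irreducible. -/
theorem isIrreducible_of_density (ρ : Γ →* GL (Fin 2) ℂ) [Finite ρ.range]
    (good : Set ℕ) (frob : ℕ → Γ)
    (hcheb : ∀ S : Set (GL (Fin 2) ℂ), S ⊆ ρ.range →
      (∀ g ∈ ρ.range, ∀ h ∈ S, g * h * g⁻¹ ∈ S) →
      ∀ ε > 0, ∃ B : ℝ, ∀ s ∈ Set.Ioc (1 : ℝ) 2, ∃ P : Finset ℕ,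
        (∀ p ∈ P, p ∈ good ∧ ρ (frob p) ∈ S) ∧
        ((Nat.card S : ℝ) / Nat.card ρ.range - ε) * Real.log (1 / (s - 1)) - B ≤
          ∑ p ∈ P, (p : ℝ) ^ (-s))
    (hrankin : ∃ C : ℝ, ∀ s ∈ Set.Ioc (1 : ℝ) 2, ∀ P : Finset ℕ, (∀ p ∈ P, p ∈ good) →
      ∑ p ∈ P, ‖((ρ (frob p) : GL (Fin 2) ℂ) : Matrix (Fin 2) (Fin 2) ℂ).trace‖ ^ 2 *
        (p : ℝ) ^ (-s) ≤ Real.log (1 / (s - 1)) + C) :
    (Deformation.matrixRepresentation ρ).IsIrreducible := by
  classical
  by_contra hirr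
  obtain ⟨v, hv, hstab⟩ := exists_stable_line_of_not_irreducible ρ hirr
  let _ : Fintype ρ.range := Fintype.ofFinite _
  have hstabG : ∀ g ∈ ρ.range, ∃ c : ℂ,
      ((g : GL (Fin 2) ℂ) : Matrix (Fin 2) (Fin 2) ℂ) *ᵥ v = c • v := by
    rintro g ⟨γ, rfl⟩
    exact hstab γ
  set T : ρ.range → ℝ :=
    fun g => ‖((g : GL (Fin 2) ℂ) : Matrix (Fin 2) (Fin 2) ℂ).trace‖ ^ 2 with hTdef
  have hT2 := two_mul_card_le_sum_trace ρ.range v hv hstabG
  set F : ℕ → ρ.range := fun p => ⟨ρ (frob p), ⟨frob p, rfl⟩⟩ with hFdef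
  refine density_contradiction T (fun g => sq_nonneg _) hT2 good F ?_ ?_
  · intro t ε hε
    set S : Set (GL (Fin 2) ℂ) :=
      {h | h ∈ ρ.range ∧ ‖((h : GL (Fin 2) ℂ) : Matrix (Fin 2) (Fin 2) ℂ).trace‖ ^ 2 = t}
      with hS
    have hSsub : S ⊆ ρ.range := fun h hh => hh.1
    have hSconj : ∀ g ∈ ρ.range, ∀ h ∈ S, g * h * g⁻¹ ∈ S := by
      intro g hg h hh
      refine ⟨ρ.range.mul_mem (ρ.range.mul_mem hg hh.1) (ρ.range.inv_mem hg), ?_⟩
      have : ((g * h * g⁻¹ : GL (Fin 2) ℂ) : Matrix (Fin 2) (Fin 2) ℂ).trace =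
          ((h : GL (Fin 2) ℂ) : Matrix (Fin 2) (Fin 2) ℂ).trace := by
        rw [Units.val_mul, Units.val_mul, Matrix.trace_mul_cycle, ← Units.val_mul,
          inv_mul_cancel, Units.val_one, Matrix.one_mul]
      rw [this]
      exact hh.2
    have hcardS : Nat.card S = (Finset.univ.filter (fun g : ρ.range => T g = t)).card := by
      rw [← Nat.card_eq_finsetCard]
      refine Nat.card_congr ?_
      refine
        { toFun := fun x => ⟨⟨x.1, x.2.1⟩, Finset.mem_filter.mpr ⟨Finset.mem_univ _, x.2.2⟩⟩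
          invFun := fun y => ⟨y.1.1, ⟨y.1.2, (Finset.mem_filter.mp y.2).2⟩⟩
          left_inv := fun x => rfl
          right_inv := fun y => rfl }
    obtain ⟨B, hB⟩ := hcheb S hSsub hSconj ε hε
    refine ⟨B, fun s hs => ?_⟩
    obtain ⟨P, hP1, hP2⟩ := hB s hs
    refine ⟨P, fun p hp => ⟨(hP1 p hp).1, (hP1 p hp).2.2⟩, ?_⟩
    rw [hcardS, Nat.card_eq_fintype_card] at hP2
    exact hP2
  · exact hrankin

/-- Variant of `isIrreducible_of_density` with the Frobenius traces named `a p` (the shape of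
`Main65.rankin_sharp`). -/
theorem isIrreducible_of_density' (ρ : Γ →* GL (Fin 2) ℂ) [Finite ρ.range]
    (good : Set ℕ) (frob : ℕ → Γ) (a : ℕ → ℂ)
    (htr : ∀ p ∈ good,
      ((ρ (frob p) : GL (Fin 2) ℂ) : Matrix (Fin 2) (Fin 2) ℂ).trace = a p)
    (hcheb : ∀ S : Set (GL (Fin 2) ℂ), S ⊆ ρ.range →
      (∀ g ∈ ρ.range, ∀ h ∈ S, g * h * g⁻¹ ∈ S) →
      ∀ ε > 0, ∃ B : ℝ, ∀ s ∈ Set.Ioc (1 : ℝ) 2, ∃ P : Finset ℕ,
        (∀ p ∈ P, p ∈ good ∧ ρ (frob p) ∈ S) ∧
        ((Nat.card S : ℝ) / Nat.card ρ.range - ε) * Real.log (1 / (s - 1)) - B ≤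
          ∑ p ∈ P, (p : ℝ) ^ (-s))
    (hrankin : ∃ C : ℝ, ∀ s ∈ Set.Ioc (1 : ℝ) 2, ∀ P : Finset ℕ, (∀ p ∈ P, p ∈ good) →
      ∑ p ∈ P, ‖a p‖ ^ 2 * (p : ℝ) ^ (-s) ≤ Real.log (1 / (s - 1)) + C) :
    (Deformation.matrixRepresentation ρ).IsIrreducible := by
  refine isIrreducible_of_density ρ good frob hcheb ?_
  obtain ⟨C, hC⟩ := hrankin
  refine ⟨C, fun s hs P hP => ?_⟩
  have := hC s hs P hP
  have heq : ∑ p ∈ P, ‖((ρ (frob p) : GL (Fin 2) ℂ) : Matrix (Fin 2) (Fin 2) ℂ).trace‖ ^ 2 *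
      (p : ℝ) ^ (-s) = ∑ p ∈ P, ‖a p‖ ^ 2 * (p : ℝ) ^ (-s) :=
    Finset.sum_congr rfl fun p hp => by rw [htr p (hP p hp)]
  rw [heq]
  exact this

/-- A representation of `G_ℚ` factoring through a finite level has finite image. -/
theorem finite_range_of_factorsThroughFiniteLevel {M : Type} [Group M]
    (ρ : (AlgebraicClosure ℚ ≃ₐ[ℚ] AlgebraicClosure ℚ) →* M)
    (h : GaloisFactorsThroughFiniteLevel ρ) : Finite ρ.range := by
  classical
  obtain ⟨L, hL, hρ⟩ := h
  let f : (AlgebraicClosure ℚ ≃ₐ[ℚ] AlgebraicClosure ℚ) → (L →ₐ[ℚ] AlgebraicClosure ℚ) :=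
    fun σ => (σ : AlgebraicClosure ℚ →ₐ[ℚ] AlgebraicClosure ℚ).comp L.val
  have hf : ∀ σ τ, f σ = f τ → ρ σ = ρ τ := by
    intro σ τ hστ
    have h1 : ρ (σ⁻¹ * τ) = 1 := by
      apply hρ
      intro x hx
      have hx' : σ x = τ x := DFunLike.congr_fun hστ ⟨x, hx⟩
      change σ⁻¹ (τ x) = x
      rw [← hx']
      exact σ.symm_apply_apply x
    rw [map_mul, map_inv, inv_mul_eq_one] at h1
    exact h1
  let g : (L →ₐ[ℚ] AlgebraicClosure ℚ) → M := fun φ =>
    if hφ : ∃ σ, f σ = φ then ρ hφ.choose else 1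
  have hg : ∀ σ, ρ σ = g (f σ) := by
    intro σ
    have hex : ∃ σ', f σ' = f σ := ⟨σ, rfl⟩
    simp only [g, dif_pos hex]
    exact hf _ _ hex.choose_spec.symm
  have hsub : (ρ.range : Set M) ⊆ Set.range g := by
    rintro _ ⟨σ, rfl⟩
    exact ⟨f σ, (hg σ).symm⟩
  exact (Set.finite_range g).subset hsub

end Main

end Fermat.Agent.DS.Endgame.Irred87
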