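/-
S48 (Deligne–Serre), chapter (DS-e), step (e5-irr), variant: the irreducibility criterion of
`Irred87` when Chebotarev's lower bound is only available for subsets of the image which are
stable under conjugation AND inversion (the simplification of the Chebotarev chapter which avoids
any control of arguments of `L`-values).  The level sets of `‖tr‖²` on a finite subgroup of
`GL₂(ℂ)` are inversion-stable because `tr h⁻¹ = tr h / det h` and `‖det h‖ = 1`.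
-/
import Fermat.Agent.DS.Endgame.Irred87

set_option autoImplicit false

namespace Fermat.Agent.DS.Endgame.IrredInv87

open Matrix Fermat.Agent.DS.Endgame.Irred87

/-- `tr h⁻¹ = (det h)⁻¹ · tr h` for `h ∈ GL₂`. -/
theorem trace_inv_fin_two (h : GL (Fin 2) ℂ) :
    ((h⁻¹ : GL (Fin 2) ℂ) : Matrix (Fin 2) (Fin 2) ℂ).trace =
      ((h : Matrix (Fin 2) (Fin 2) ℂ).det)⁻¹ * (h : Matrix (Fin 2) (Fin 2) ℂ).trace := by
  have hadj : (Matrix.adjugate (h : Matrix (Fin 2) (Fin 2) ℂ)).trace =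
      (h : Matrix (Fin 2) (Fin 2) ℂ).trace := by
    rw [Matrix.adjugate_fin_two, Matrix.trace_fin_two, Matrix.trace_fin_two]
    simp [add_comm]
  rw [Matrix.coe_units_inv, Matrix.inv_def, Matrix.trace_smul, hadj,
    Ring.inverse_eq_inv', smul_eq_mul]

/-- On a finite-order element the norm of the trace is inversion-invariant. -/
theorem norm_trace_inv_of_finite_order (h : GL (Fin 2) ℂ) {n : ℕ} (hn : n ≠ 0) (hpow : h ^ n = 1) :
    ‖((h⁻¹ : GL (Fin 2) ℂ) : Matrix (Fin 2) (Fin 2) ℂ).trace‖ =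
      ‖(h : Matrix (Fin 2) (Fin 2) ℂ).trace‖ := by
  have hdet : ((h : Matrix (Fin 2) (Fin 2) ℂ).det) ^ n = 1 := by
    rw [← Matrix.det_pow, ← Units.val_pow_eq_pow_val, hpow, Units.val_one, Matrix.det_one]
  have hnorm : ‖(h : Matrix (Fin 2) (Fin 2) ℂ).det‖ = 1 :=
    Complex.norm_eq_one_of_pow_eq_one hdet hn
  rw [trace_inv_fin_two, norm_mul, norm_inv, hnorm, inv_one, one_mul]

variable {Γ : Type} [Group Γ]

/-- **(e5-irr), inversion-stable form.**  Same as `Irred87.isIrreducible_of_density`, but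
Chebotarev's lower bound is only required for subsets of the image stable under conjugation and
inversion. -/
theorem isIrreducible_of_density_inv (ρ : Γ →* GL (Fin 2) ℂ) [Finite ρ.range]
    (good : Set ℕ) (frob : ℕ → Γ)
    (hcheb : ∀ S : Set (GL (Fin 2) ℂ), S ⊆ ρ.range →
      (∀ g ∈ ρ.range, ∀ h ∈ S, g * h * g⁻¹ ∈ S) → (∀ h ∈ S, h⁻¹ ∈ S) →
      ∀ ε > 0, ∃ B : ℝ, ∀ s ∈ Set.Ioc (1 : ℝ) 2, ∃ P : Finset ℕ,
        (∀ p ∈ P, p ∈ good ∧ ρ (frob p) ∈ S) ∧
        ((Nat.card S : ℝ) / Nat.card ρ.range - ε) * Real.log (1 / (s - 1)) - B ≤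
          ∑ p ∈ P, (p : ℝ) ^ (-s))
    (hrankin : ∃ C : ℝ, ∀ s ∈ Set.Ioc (1 : ℝ) 2, ∀ P : Finset ℕ, (∀ p ∈ P, p ∈ good) →
      ∑ p ∈ P, ‖((ρ (frob p) : GL (Fin 2) ℂ) : Matrix (Fin 2) (Fin 2) ℂ).trace‖ ^ 2 *
        (p : ℝ) ^ (-s) ≤ Real.log (1 / (s - 1)) + C) :
    (Deformation.matrixRepresentation ρ).IsIrreducible := by
  classical
  by_contra hirr
  obtain ⟨v, hv, hstab⟩ := exists_stable_line_of_not_irreducible ρ hirr
  let _ : Fintype ρ.range := Fintype.ofFinite _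
  have hstabG : ∀ g ∈ ρ.range, ∃ c : ℂ,
      ((g : GL (Fin 2) ℂ) : Matrix (Fin 2) (Fin 2) ℂ) *ᵥ v = c • v := by
    rintro g ⟨γ, rfl⟩
    exact hstab γ
  set T : ρ.range → ℝ :=
    fun g => ‖((g : GL (Fin 2) ℂ) : Matrix (Fin 2) (Fin 2) ℂ).trace‖ ^ 2 with hTdef
  have hT2 := two_mul_card_le_sum_trace ρ.range v hv hstabG
  set F : ℕ → ρ.range := fun p => ⟨ρ (frob p), ⟨frob p, rfl⟩⟩ with hFdef
  refine density_contradiction T (fun g => sq_nonneg _) hT2 good F ?_ hrankin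
  intro t ε hε
  set S : Set (GL (Fin 2) ℂ) :=
    {h | h ∈ ρ.range ∧ ‖((h : GL (Fin 2) ℂ) : Matrix (Fin 2) (Fin 2) ℂ).trace‖ ^ 2 = t}
    with hS
  have hSsub : S ⊆ ρ.range := fun h hh => hh.1
  have hSconj : ∀ g ∈ ρ.range, ∀ h ∈ S, g * h * g⁻¹ ∈ S := by
    intro g hg h hh
    refine ⟨ρ.range.mul_mem (ρ.range.mul_mem hg hh.1) (ρ.range.inv_mem hg), ?_⟩
    have : ((g * h * g⁻¹ : GL (Fin 2) ℂ) : Matrix (Fin 2) (Fin 2) ℂ).trace =
        ((h : GL (Fin 2) ℂ) : Matrix (Fin 2) (Fin 2) ℂ).trace := by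
      rw [Units.val_mul, Units.val_mul, Matrix.trace_mul_cycle, ← Units.val_mul,
        inv_mul_cancel, Units.val_one, Matrix.one_mul]
    rw [this]
    exact hh.2
  have hSinv : ∀ h ∈ S, h⁻¹ ∈ S := by
    intro h hh
    refine ⟨ρ.range.inv_mem hh.1, ?_⟩
    have hfin : IsOfFinOrder (⟨h, hh.1⟩ : ρ.range) := isOfFinOrder_of_finite _
    have hord : orderOf (⟨h, hh.1⟩ : ρ.range) ≠ 0 := (orderOf_pos _).ne'
    have hpow : h ^ orderOf (⟨h, hh.1⟩ : ρ.range) = 1 := by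
      have := pow_orderOf_eq_one (⟨h, hh.1⟩ : ρ.range)
      exact congrArg Subtype.val this
    rw [norm_trace_inv_of_finite_order h hord hpow]
    exact hh.2
  have hcardS : Nat.card S = (Finset.univ.filter (fun g : ρ.range => T g = t)).card := by
    rw [← Nat.card_eq_finsetCard]
    refine Nat.card_congr ?_
    refine
      { toFun := fun x => ⟨⟨x.1, x.2.1⟩, Finset.mem_filter.mpr ⟨Finset.mem_univ _, x.2.2⟩⟩
        invFun := fun y => ⟨y.1.1, ⟨y.1.2, (Finset.mem_filter.mp y.2).2⟩⟩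
        left_inv := fun x => rfl
        right_inv := fun y => rfl }
  obtain ⟨B, hB⟩ := hcheb S hSsub hSconj hSinv ε hε
  refine ⟨B, fun s hs => ?_⟩
  obtain ⟨P, hP1, hP2⟩ := hB s hs
  refine ⟨P, fun p hp => ⟨(hP1 p hp).1, (hP1 p hp).2.2⟩, ?_⟩
  rw [hcardS, Nat.card_eq_fintype_card] at hP2
  exact hP2

end Fermat.Agent.DS.Endgame.IrredInv87
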