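/-
S48 (Deligne–Serre), chapter (DS-e), step (e5-irr), WIRING: the exit contract `QbarLower` of the
Chebotarev chapter (DS/Cheb/Spec11) and Rankin's sharp bound give the irreducibility of a
finite-level representation `ρ : G_ℚ → GL₂(ℂ)`, in the vocabulary of the literal S48.
-/
import Fermat.Agent.DS.Cheb.Spec11
import Fermat.Agent.DS.Endgame.IrredInv87

set_option autoImplicit false

namespace Fermat.Agent.DS.Endgame.IrredWire87

open Fermat.Agent.Lib.FrobeniusExists Fermat.Agent.DS.Cheb.Spec11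
open Fermat.Agent.DS.Endgame.Irred87 Fermat.Agent.DS.Endgame.IrredInv87

/-! ### Counting preimages under a group homomorphism -/

section Card

variable {G H : Type*} [Group G] [Group H]

/-- `#f⁻¹(S) = #S · #ker f` for `S ⊆ range f`. -/
theorem card_preimage (f : G →* H) (S : Set H) (hS : S ⊆ f.range) :
    Nat.card (f ⁻¹' S) = Nat.card S * Nat.card f.ker := by
  classical
  rw [← Nat.card_prod]
  have hsec : ∀ x : S, ∃ g : G, f g = x := fun x => hS x.2
  choose sec hsec' using hsec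
  refine Nat.card_congr
    { toFun := fun g => (⟨f g.1, g.2⟩, ⟨(sec ⟨f g.1, g.2⟩)⁻¹ * g.1, ?_⟩)
      invFun := fun xn => ⟨sec xn.1 * xn.2.1, ?_⟩
      left_inv := fun g => ?_
      right_inv := fun xn => ?_ }
  · rw [MonoidHom.mem_ker, map_mul, map_inv, hsec', inv_mul_cancel]
  · have hn : f xn.2.1 = 1 := MonoidHom.mem_ker.mp xn.2.2
    change f (sec xn.1 * xn.2.1) ∈ S
    rw [map_mul, hsec', hn, mul_one]
    exact xn.1.2
  · apply Subtype.ext
    simp
  · obtain ⟨x, n⟩ := xn
    have hn : f n.1 = 1 := MonoidHom.mem_ker.mp n.2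
    have hfx : f (sec x * n.1) = x := by rw [map_mul, hsec', hn, mul_one]
    have hx : (⟨f (sec x * n.1), by rw [hfx]; exact x.2⟩ : S) = x := Subtype.ext hfx
    refine Prod.ext hx ?_
    apply Subtype.ext
    simp only
    rw [hx]
    group

/-- `#G = #range f · #ker f`. -/
theorem card_eq_card_range_mul_card_ker (f : G →* H) :
    Nat.card G = Nat.card f.range * Nat.card f.ker := by
  have h := card_preimage f (f.range : Set H) (le_refl _)
  have huniv : f ⁻¹' (f.range : Set H) = Set.univ := by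
    ext g
    simp
  rw [huniv, Nat.card_univ] at h
  exact h

/-- The proportion of `f⁻¹(S)` in `G` equals the proportion of `S` in `range f`. -/
theorem card_preimage_div [Finite G] (f : G →* H) (S : Set H) (hS : S ⊆ f.range) :
    (Nat.card (f ⁻¹' S) : ℝ) / Nat.card G = (Nat.card S : ℝ) / Nat.card f.range := by
  have hk : (Nat.card f.ker : ℝ) ≠ 0 := by
    have : Nat.card f.ker ≠ 0 := Nat.card_pos.ne'
    exact_mod_cast this
  rw [card_preimage f S hS, card_eq_card_range_mul_card_ker f, Nat.cast_mul, Nat.cast_mul,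
    mul_div_mul_right _ _ hk]

end Card

/-! ### Factoring a finite-level representation through a finite Galois group -/

section Factor

attribute [local instance] isGalois_Qbar isIntegral_Qbar

/-- A representation of `G_ℚ` of finite level factors through `Gal(L/ℚ)` for a finite Galois
`L ⊂ ℚ̄`. -/
theorem exists_factor {M : Type} [Group M] (ρ : GQ →* M)
    (h : GaloisFactorsThroughFiniteLevel ρ) :
    ∃ (L : IntermediateField ℚ Qbar) (_ : FiniteDimensional ℚ L) (_ : IsGalois ℚ L)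
      (r : (L ≃ₐ[ℚ] L) →* M), ∀ σ : GQ, r (AlgEquiv.restrictNormalHom L σ) = ρ σ := by
  obtain ⟨L₀, hL₀, hρ⟩ := h
  let L : IntermediateField ℚ Qbar := IntermediateField.normalClosure ℚ L₀ Qbar
  have hfin : FiniteDimensional ℚ L := normalClosure.is_finiteDimensional ℚ L₀ Qbar
  have hnorm : Normal ℚ L := normalClosure.normal ℚ L₀ Qbar
  have hle : L₀ ≤ L := IntermediateField.le_normalClosure L₀
  have hgal : IsGalois ℚ L := ⟨⟩
  have hker : (AlgEquiv.restrictNormalHom (F := ℚ) (K₁ := Qbar) L).ker ≤ ρ.ker := by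
    intro σ hσ
    rw [MonoidHom.mem_ker] at hσ ⊢
    apply hρ
    intro x hx
    have h1 : algebraMap L Qbar ((AlgEquiv.restrictNormalHom L σ) ⟨x, hle hx⟩) =
        σ (algebraMap L Qbar ⟨x, hle hx⟩) :=
      AlgEquiv.restrictNormal_commutes σ L ⟨x, hle hx⟩
    rw [hσ] at h1
    exact h1.symm
  have hsurj : Function.Surjective (AlgEquiv.restrictNormalHom (F := ℚ) (K₁ := Qbar) L) :=
    AlgEquiv.restrictNormalHom_surjective Qbar
  refine ⟨L, hfin, hgal,
    (AlgEquiv.restrictNormalHom (F := ℚ) (K₁ := Qbar) L).liftOfSurjective hsurj ⟨ρ, hker⟩,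
    fun σ => ?_⟩
  exact MonoidHom.liftOfRightInverse_comp_apply _ _ _ ⟨ρ, hker⟩ σ

end Factor

/-! ### The irreducibility step in the vocabulary of S48 -/

section Main

attribute [local instance] isGalois_Qbar isIntegral_Qbar

open Classical in
/-- A choice of Frobenius element at every prime. -/
noncomputable def frobAt (p : ℕ) : GQ :=
  if hp : p.Prime then (Fermat.Agent.Lib.exists_isFrobeniusAt p hp).choose_spec.choose else 1

open Classical in
/-- The valuation subring at which `frobAt p` is a Frobenius element. -/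
noncomputable def valAt (p : ℕ) : ValuationSubring Qbar :=
  if hp : p.Prime then (Fermat.Agent.Lib.exists_isFrobeniusAt p hp).choose else ⊤

theorem valAt_liesOver {p : ℕ} (hp : p.Prime) : (valAt p).LiesOverPrime p := by
  unfold valAt
  rw [dif_pos hp]
  exact (Fermat.Agent.Lib.exists_isFrobeniusAt p hp).choose_spec.choose_spec.1

theorem frobAt_isFrobeniusAt {p : ℕ} (hp : p.Prime) : (valAt p).IsFrobeniusAt (frobAt p) p := by
  unfold valAt frobAt
  rw [dif_pos hp, dif_pos hp]
  exact (Fermat.Agent.Lib.exists_isFrobeniusAt p hp).choose_spec.choose_spec.2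

/-- **(e5-irr), S48 vocabulary.**  Let `ρ : G_ℚ → GL₂(ℂ)` be of finite level, with
`tr ρ(Frob_p) = a p` for every Frobenius element at every prime `p ∤ m`.  If the Chebotarev
chapter's exit contract `QbarLower` holds and `a` satisfies Rankin's sharp bound
`∑_{p ∤ m} ‖a p‖² p^{-s} ≤ log (1/(s-1)) + C`, then `ρ` is irreducible. -/
theorem isIrreducible_of_qbarLower (hQ : QbarLower) (ρ : GQ →* GL (Fin 2) ℂ)
    (hfin : GaloisFactorsThroughFiniteLevel ρ) (m : ℕ) (hm : m ≠ 0) (a : ℕ → ℂ)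
    (htr : ∀ p : ℕ, p.Prime → ¬ p ∣ m → ∀ A : ValuationSubring Qbar, A.LiesOverPrime p →
      ∀ σ : GQ, A.IsFrobeniusAt σ p →
        ((ρ σ : GL (Fin 2) ℂ) : Matrix (Fin 2) (Fin 2) ℂ).trace = a p)
    (hrankin : ∃ C : ℝ, ∀ s ∈ Set.Ioc (1 : ℝ) 2, ∀ P : Finset ℕ,
      (∀ p ∈ P, p.Prime ∧ ¬ p ∣ m) →
      ∑ p ∈ P, ‖a p‖ ^ 2 * (p : ℝ) ^ (-s) ≤ Real.log (1 / (s - 1)) + C) :
    (Deformation.matrixRepresentation ρ).IsIrreducible := by
  classical
  have hfinrange : Finite ρ.range := finite_range_of_factorsThroughFiniteLevel ρ hfin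
  obtain ⟨L, hLfin, hLgal, r, hr⟩ := exists_factor ρ hfin
  have hrange : r.range = ρ.range := by
    ext x
    constructor
    · rintro ⟨g, rfl⟩
      obtain ⟨σ, rfl⟩ := AlgEquiv.restrictNormalHom_surjective (F := ℚ) (K₁ := L) Qbar g
      exact ⟨σ, (hr σ).symm⟩
    · rintro ⟨σ, rfl⟩
      exact ⟨AlgEquiv.restrictNormalHom L σ, hr σ⟩
  set good : Set ℕ := {p | p.Prime ∧ ¬ p ∣ m} with hgood
  refine isIrreducible_of_density_inv ρ good frobAt ?_ ?_
  · -- Chebotarev
    intro S hSsub hSconj hSinv ε hε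
    have hSsub' : S ⊆ r.range := by rw [hrange]; exact hSsub
    set S' : Set (L ≃ₐ[ℚ] L) := r ⁻¹' S with hS'
    have hS'conj : ∀ g h, h ∈ S' → g * h * g⁻¹ ∈ S' := by
      intro g h hh
      change r (g * h * g⁻¹) ∈ S
      rw [map_mul, map_mul, map_inv]
      exact hSconj (r g) (by rw [← hrange]; exact ⟨g, rfl⟩) (r h) hh
    have hS'inv : ∀ h ∈ S', h⁻¹ ∈ S' := by
      intro h hh
      change r h⁻¹ ∈ S
      rw [map_inv]
      exact hSinv (r h) hh
    obtain ⟨B, hB⟩ := hQ L S' hS'conj hS'inv m hm ε hε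
    refine ⟨B, fun s hs => ?_⟩
    obtain ⟨P, hP1, hP2⟩ := hB s hs
    refine ⟨P, fun p hp => ?_, ?_⟩
    · obtain ⟨hpp, hpm, hfrob⟩ := hP1 p hp
      refine ⟨⟨hpp, hpm⟩, ?_⟩
      have := hfrob (valAt p) (valAt_liesOver hpp) (frobAt p) (frobAt_isFrobeniusAt hpp)
      change r (AlgEquiv.restrictNormalHom L (frobAt p)) ∈ S at this
      rwa [hr] at this
    · have hcard := card_preimage_div r S hSsub'
      rw [hrange] at hcard
      rw [← hcard]
      exact hP2
  · -- Rankin
    obtain ⟨C, hC⟩ := hrankin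
    refine ⟨C, fun s hs P hP => ?_⟩
    have heq : ∑ p ∈ P, ‖((ρ (frobAt p) : GL (Fin 2) ℂ) : Matrix (Fin 2) (Fin 2) ℂ).trace‖ ^ 2 *
        (p : ℝ) ^ (-s) = ∑ p ∈ P, ‖a p‖ ^ 2 * (p : ℝ) ^ (-s) :=
      Finset.sum_congr rfl fun p hp => by
        rw [htr p (hP p hp).1 (hP p hp).2 (valAt p) (valAt_liesOver (hP p hp).1) (frobAt p)
          (frobAt_isFrobeniusAt (hP p hp).1)]
    rw [heq]
    exact hC s hs P hP

end Main

end Fermat.Agent.DS.Endgame.IrredWire87
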