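/-
S48 (Deligne–Serre), chapter (DS-e), step (e5-irr), FINAL FORM: in the situation of the literal
S48 (weight-one cusp form `f` on `Γ₁(N)` with `a₁ = 1` and the Hecke relations `hT`), ANY
finite-level `ρ : G_ℚ → GL₂(ℂ)` with `tr ρ(Frob_p) = a_p(f)` at all `p ∤ N` is irreducible,
given the exit contract `QbarLower` of the Chebotarev chapter.
(Rankin's sharp bound with `B = 2`: `a_p` is a sum of two roots of unity.)
-/
import Fermat.Agent.DS.Endgame.IrredWire87
import Fermat.Agent.DS.Endgame.RootsOfUnity87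
import Fermat.Agent.DS.Rankin.Main65

set_option autoImplicit false

open CongruenceSubgroup
open scoped MatrixGroups

namespace Fermat.Agent.DS.Endgame.IrredS48_87

open Fermat.Agent.Lib.FrobeniusExists Fermat.Agent.DS.Cheb.Spec11
open Fermat.Agent.DS.Endgame.Irred87 Fermat.Agent.DS.Endgame.IrredWire87
open Fermat.Agent.DS.Endgame.RootsOfUnity87

/-- The trace of a finite-order element of `GL₂(ℂ)` has norm `≤ 2`. -/
theorem norm_trace_le_two_of_pow_eq_one (g : GL (Fin 2) ℂ) {n : ℕ} (hn : n ≠ 0) (hg : g ^ n = 1) :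
    ‖((g : GL (Fin 2) ℂ) : Matrix (Fin 2) (Fin 2) ℂ).trace‖ ≤ 2 := by
  have hM : ((g : GL (Fin 2) ℂ) : Matrix (Fin 2) (Fin 2) ℂ) ^ n = 1 := by
    rw [← Units.val_pow_eq_pow_val, hg, Units.val_one]
  obtain ⟨α, β, hα, hβ, htr, -⟩ := exists_roots_of_pow_eq_one _ n hM
  have h1 : ‖α‖ = 1 := Complex.norm_eq_one_of_pow_eq_one hα hn
  have h2 : ‖β‖ = 1 := Complex.norm_eq_one_of_pow_eq_one hβ hn
  rw [htr]
  calc ‖α + β‖ ≤ ‖α‖ + ‖β‖ := norm_add_le _ _
    _ = 2 := by rw [h1, h2]; norm_num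

/-- Every value of a finite-image representation has trace of norm `≤ 2`. -/
theorem norm_trace_le_two {Γ : Type} [Group Γ] (ρ : Γ →* GL (Fin 2) ℂ) [Finite ρ.range] (γ : Γ) :
    ‖((ρ γ : GL (Fin 2) ℂ) : Matrix (Fin 2) (Fin 2) ℂ).trace‖ ≤ 2 := by
  have hord : orderOf (⟨ρ γ, ⟨γ, rfl⟩⟩ : ρ.range) ≠ 0 := (orderOf_pos _).ne'
  have hpow : (ρ γ) ^ orderOf (⟨ρ γ, ⟨γ, rfl⟩⟩ : ρ.range) = 1 := by
    have := pow_orderOf_eq_one (⟨ρ γ, ⟨γ, rfl⟩⟩ : ρ.range)
    exact congrArg Subtype.val this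
  exact norm_trace_le_two_of_pow_eq_one (ρ γ) hord hpow

/-- **Irreducibility in S48.**  With the hypotheses `hf₁`, `hT` of the literal S48: a finite-level
`ρ : G_ℚ → GL₂(ℂ)` whose Frobenius traces at the primes `p ∤ N` are the `a_p(f)` is irreducible
(given `QbarLower`). -/
theorem isIrreducible_of_trace_eq_qCoeff (hQ : QbarLower)
    (N : ℕ) [NeZero N] (ε : DirichletCharacter ℂ N) (f : CuspForm (Gamma1 N) 1)
    (hf₁ : ModularFormClass.qCoeff f 1 = 1)
    (hT : ∀ p : ℕ, p.Prime → ¬ p ∣ N → ∀ n : ℕ,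
        ModularFormClass.qCoeff f (p * n) +
            ε (p : ZMod N) * (if p ∣ n then ModularFormClass.qCoeff f (n / p) else 0) =
          ModularFormClass.qCoeff f p * ModularFormClass.qCoeff f n)
    (ρ : GQ →* GL (Fin 2) ℂ) (hfin : GaloisFactorsThroughFiniteLevel ρ)
    (htr : ∀ p : ℕ, p.Prime → ¬ p ∣ N → ∀ A : ValuationSubring Qbar, A.LiesOverPrime p →
      ∀ σ : GQ, A.IsFrobeniusAt σ p →
        ((ρ σ : GL (Fin 2) ℂ) : Matrix (Fin 2) (Fin 2) ℂ).trace = ModularFormClass.qCoeff f p) :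
    (Deformation.matrixRepresentation ρ).IsIrreducible := by
  have hfinrange : Finite ρ.range := finite_range_of_factorsThroughFiniteLevel ρ hfin
  have hB : ∀ p : ℕ, p.Prime → ¬ p ∣ N → ‖ModularFormClass.qCoeff f p‖ ≤ 2 := by
    intro p hp hpN
    rw [← htr p hp hpN (valAt p) (valAt_liesOver hp) (frobAt p) (frobAt_isFrobeniusAt hp)]
    exact norm_trace_le_two ρ _
  have hrankin := Fermat.Agent.DS.Rankin.Main65.rankin_sharp f hf₁
    (fun p => ε (p : ZMod N)) hT 2 hB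
  exact isIrreducible_of_qbarLower hQ ρ hfin N (NeZero.ne N)
    (fun p => ModularFormClass.qCoeff f p) htr hrankin

end Fermat.Agent.DS.Endgame.IrredS48_87
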