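/-
S48 (Deligne–Serre), chapter (DS-e), step (G2a): a `2 × 2` matrix of finite order `m` over a
domain containing `m` distinct `m`-th roots of unity has trace `ξ + ξ'` and determinant `ξ ξ'`
with `ξ, ξ'` among those roots.  Mathlib only.
-/
import Mathlib

set_option autoImplicit false

namespace Fermat.Agent.DS.Endgame.RootsOfUnity87

open Matrix Polynomial

section Field

variable {K : Type*} [Field K]

/-- A root `α` of `X² - tr·X + det` is an eigenvalue of the `2 × 2` matrix. -/
theorem exists_eigenvector (M : Matrix (Fin 2) (Fin 2) K) (α : K)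
    (hα : α ^ 2 - M.trace * α + M.det = 0) : ∃ v : Fin 2 → K, v ≠ 0 ∧ M *ᵥ v = α • v := by
  have hdet : (M - α • (1 : Matrix (Fin 2) (Fin 2) K)).det = 0 := by
    rw [Matrix.det_fin_two]
    rw [Matrix.trace_fin_two, Matrix.det_fin_two] at hα
    simp only [Matrix.sub_apply, Matrix.smul_apply, Matrix.one_apply_eq, smul_eq_mul, mul_one,
      Matrix.one_apply_ne (show (0 : Fin 2) ≠ 1 by decide),
      Matrix.one_apply_ne (show (1 : Fin 2) ≠ 0 by decide), mul_zero, sub_zero]
    linear_combination hα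
  obtain ⟨v, hv, h0⟩ := Matrix.exists_mulVec_eq_zero_iff.mpr hdet
  refine ⟨v, hv, ?_⟩
  rw [Matrix.sub_mulVec, Matrix.smul_mulVec, Matrix.one_mulVec, sub_eq_zero] at h0
  exact h0

/-- An eigenvalue of a matrix of order dividing `m` is an `m`-th root of unity. -/
theorem eigenvalue_pow_eq_one (M : Matrix (Fin 2) (Fin 2) K) (m : ℕ) (hM : M ^ m = 1) (α : K)
    (v : Fin 2 → K) (hv : v ≠ 0) (h : M *ᵥ v = α • v) : α ^ m = 1 := by
  have hpow : ∀ n : ℕ, (M ^ n) *ᵥ v = α ^ n • v := by
    intro n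
    induction n with
    | zero => simp
    | succ n ih =>
      rw [pow_succ, ← Matrix.mulVec_mulVec, h, Matrix.mulVec_smul, ih, smul_smul, pow_succ,
        mul_comm]
  have h1 := hpow m
  rw [hM, Matrix.one_mulVec] at h1
  obtain ⟨i, hi⟩ : ∃ i, v i ≠ 0 := by
    by_contra hcon
    simp only [not_exists, not_not] at hcon
    exact hv (funext hcon)
  have h2 := congrFun h1 i
  simp only [Pi.smul_apply, smul_eq_mul] at h2
  have h3 : (α ^ m - 1) * v i = 0 := by rw [sub_mul, one_mul, ← h2, sub_self]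
  rcases mul_eq_zero.mp h3 with h4 | h4
  · exact sub_eq_zero.mp h4
  · exact absurd h4 hi

/-- Over an algebraically closed field: a matrix of order dividing `m` has
`tr = α + β`, `det = α β` with `α^m = β^m = 1`. -/
theorem exists_roots_of_pow_eq_one [IsAlgClosed K] (M : Matrix (Fin 2) (Fin 2) K) (m : ℕ)
    (hM : M ^ m = 1) :
    ∃ α β : K, α ^ m = 1 ∧ β ^ m = 1 ∧ M.trace = α + β ∧ M.det = α * β := by
  -- a root of `X² - tX + d`
  obtain ⟨α, hα⟩ : ∃ α : K, α ^ 2 - M.trace * α + M.det = 0 := by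
    have hdeg : (X ^ 2 - C M.trace * X + C M.det : K[X]).degree ≠ 0 := by
      have : (X ^ 2 - C M.trace * X + C M.det : K[X]).degree = 2 := by
        compute_degree!
      rw [this]
      norm_num
    obtain ⟨α, hα⟩ := IsAlgClosed.exists_root _ hdeg
    refine ⟨α, ?_⟩
    simpa [IsRoot.def] using hα
  set β : K := M.trace - α with hβ
  have hβroot : β ^ 2 - M.trace * β + M.det = 0 := by
    rw [hβ]
    linear_combination hα
  obtain ⟨v, hv, hev⟩ := exists_eigenvector M α hα
  obtain ⟨w, hw, hew⟩ := exists_eigenvector M β hβroot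
  refine ⟨α, β, eigenvalue_pow_eq_one M m hM α v hv hev, eigenvalue_pow_eq_one M m hM β w hw hew,
    by rw [hβ]; ring, ?_⟩
  rw [hβ]
  linear_combination hα

end Field

section Domain

/-- In a domain, a set of `m` distinct `m`-th roots of unity contains every `m`-th root of
unity. -/
theorem mem_of_pow_eq_one {K : Type*} [CommRing K] [IsDomain K] (m : ℕ) (hm : 0 < m)
    (μ : Finset K) (hμ : ∀ x ∈ μ, x ^ m = 1) (hcard : μ.card = m) {α : K} (hα : α ^ m = 1) :
    α ∈ μ := by
  classical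
  have hsub : μ ⊆ nthRootsFinset m (1 : K) := fun x hx =>
    (mem_nthRootsFinset hm (1 : K)).mpr (hμ x hx)
  have hle : (nthRootsFinset m (1 : K)).card ≤ μ.card := by
    rw [hcard, nthRootsFinset_def]
    exact (Multiset.toFinset_card_le _).trans (card_nthRoots m (1 : K))
  have heq : μ = nthRootsFinset m (1 : K) := Finset.eq_of_subset_of_card_le hsub hle
  rw [heq]
  exact (mem_nthRootsFinset hm (1 : K)).mpr hα

/-- **(G2a)** A `2 × 2` matrix `M` with `M ^ m = 1` over a domain `R` in which `X ^ m - 1` has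
`m` distinct roots `μ` has `tr M = ξ + ξ'`, `det M = ξ ξ'` with `ξ, ξ' ∈ μ`. -/
theorem trace_det_of_pow_eq_one {R : Type*} [CommRing R] [IsDomain R] (m : ℕ) (hm : 0 < m)
    (μ : Finset R) (hμ : ∀ x ∈ μ, x ^ m = 1) (hcard : μ.card = m)
    (M : Matrix (Fin 2) (Fin 2) R) (hM : M ^ m = 1) :
    ∃ ξ ∈ μ, ∃ ξ' ∈ μ, M.trace = ξ + ξ' ∧ M.det = ξ * ξ' := by
  classical
  let K := AlgebraicClosure (FractionRing R)
  let ι : R →+* K := algebraMap R K
  have hι : Function.Injective ι := by
    have h1 : Function.Injective (algebraMap R (FractionRing R)) :=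
      IsFractionRing.injective R (FractionRing R)
    have h2 : Function.Injective (algebraMap (FractionRing R) K) :=
      (algebraMap (FractionRing R) K).injective
    have h3 : ι = (algebraMap (FractionRing R) K).comp (algebraMap R (FractionRing R)) :=
      IsScalarTower.algebraMap_eq R (FractionRing R) K
    rw [h3]
    exact h2.comp h1
  set M' : Matrix (Fin 2) (Fin 2) K := ι.mapMatrix M with hM'def
  have hM' : M' ^ m = 1 := by rw [hM'def, ← map_pow, hM, map_one]
  obtain ⟨α, β, hα, hβ, htr, hdet⟩ := exists_roots_of_pow_eq_one M' m hM'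
  -- the image of `μ`
  set μ' : Finset K := μ.image ι with hμ'
  have hμ'pow : ∀ x ∈ μ', x ^ m = 1 := by
    intro x hx
    obtain ⟨y, hy, rfl⟩ := Finset.mem_image.mp hx
    rw [← map_pow, hμ y hy, map_one]
  have hμ'card : μ'.card = m := by rw [hμ', Finset.card_image_of_injective _ hι, hcard]
  obtain ⟨ξ, hξ, hξα⟩ := Finset.mem_image.mp (mem_of_pow_eq_one m hm μ' hμ'pow hμ'card hα)
  obtain ⟨ξ', hξ', hξβ⟩ := Finset.mem_image.mp (mem_of_pow_eq_one m hm μ' hμ'pow hμ'card hβ)
  refine ⟨ξ, hξ, ξ', hξ', hι ?_, hι ?_⟩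
  · rw [map_add, hξα, hξβ, ← htr, hM'def]
    exact AddMonoidHom.map_trace ι.toAddMonoidHom M
  · rw [map_mul, hξα, hξβ, ← hdet, hM'def]
    exact RingHom.map_det ι M

/-- `GL₂` form of `trace_det_of_pow_eq_one`. -/
theorem trace_det_of_pow_eq_one_GL {R : Type*} [CommRing R] [IsDomain R] (m : ℕ) (hm : 0 < m)
    (μ : Finset R) (hμ : ∀ x ∈ μ, x ^ m = 1) (hcard : μ.card = m)
    (g : GL (Fin 2) R) (hg : g ^ m = 1) :
    ∃ ξ ∈ μ, ∃ ξ' ∈ μ, (g : Matrix (Fin 2) (Fin 2) R).trace = ξ + ξ' ∧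
      (g : Matrix (Fin 2) (Fin 2) R).det = ξ * ξ' := by
  refine trace_det_of_pow_eq_one m hm μ hμ hcard _ ?_
  rw [← Units.val_pow_eq_pow_val, hg, Units.val_one]

end Domain

end Fermat.Agent.DS.Endgame.RootsOfUnity87
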