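/-
S48 programme, chapter (DS-e5) ENDGAME, brick (G0) SUPPLY (helper65; hand-off from helper69 #2843).

Mathlib only.

* `exists_prime_gt_dvd_eval` (Euclid for polynomials): a nonconstant `f ∈ ℤ[X]` has a root modulo
  arbitrarily large primes;
* `exists_int_bezout` : a separable `g ∈ ℚ[X]` has an integral multiple `f = d g` with an integral
  Bezout identity `A f + B f' = D ≠ 0`;
* `exists_padic_root` (Hensel): a root of `f` mod `ℓ`, `ℓ > |D|`, lifts to `ℤ_[ℓ]`;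
* **`infinite_padic_embeddings`** : a number field `F` has ring homomorphisms `F →+* ℚ_[ℓ]` for
  infinitely many primes `ℓ`;
* **`exists_ringOfIntegers_hom`** : every `e : F →+* ℚ_[ℓ]` restricts to `ψ : 𝓞 F →+* ℤ_[ℓ]`.
-/
import Mathlib

set_option autoImplicit false

open Polynomial NumberField

namespace Fermat.Agent.DS.Endgame.Supply65

/-- Integer normalisation of a rational polynomial. -/
theorem exists_int_poly (p : ℚ[X]) :
    ∃ (P : ℤ[X]) (e : ℤ), e ≠ 0 ∧ P.map (algebraMap ℤ ℚ) = e • p := by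
  obtain ⟨b, hb, h⟩ := IsLocalization.integerNormalization_spec (nonZeroDivisors ℤ) p
  exact ⟨_, b, nonZeroDivisors.ne_zero hb, h⟩

/-- **Euclid for polynomials**: a nonconstant integer polynomial has a root modulo arbitrarily
large primes. -/
theorem exists_prime_gt_dvd_eval (f : ℤ[X]) (hf : 0 < f.natDegree) (B : ℕ) :
    ∃ ℓ : ℕ, ℓ.Prime ∧ B < ℓ ∧ ∃ n : ℤ, (ℓ : ℤ) ∣ f.eval n := by
  set c : ℤ := f.eval 0 with hc_def
  by_cases hc : c = 0
  · obtain ⟨ℓ, hBℓ, hℓ⟩ := Nat.exists_infinite_primes (B + 1)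
    exact ⟨ℓ, hℓ, by omega, 0, by rw [← hc_def, hc]; exact dvd_zero _⟩
  set Q : ℤ := (B.factorial : ℤ) with hQ_def
  have hQ : Q ≠ 0 := by rw [hQ_def]; exact_mod_cast (Nat.factorial_pos B).ne'
  set a : ℤ := c * Q with ha_def
  have ha : a ≠ 0 := mul_ne_zero hc hQ
  set F : ℤ[X] := f.comp (C a * X) with hF_def
  have hFdeg : 0 < F.natDegree := by
    rw [hF_def, natDegree_comp, natDegree_C_mul_X a ha, mul_one]
    exact hf
  have hF0 : F ≠ 0 := fun h => by rw [h, natDegree_zero] at hFdeg; exact lt_irrefl 0 hFdeg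
  have h1 : F - C c ≠ 0 := fun h => by
    have : (F - C c).natDegree = F.natDegree := natDegree_sub_C
    rw [h, natDegree_zero] at this
    omega
  have h2 : F + C c ≠ 0 := fun h => by
    have : (F + C c).natDegree = F.natDegree := natDegree_add_C
    rw [h, natDegree_zero] at this
    omega
  have hh : (F - C c) * (F + C c) * F ≠ 0 := mul_ne_zero (mul_ne_zero h1 h2) hF0
  obtain ⟨t, ht⟩ : ∃ t : ℤ, ((F - C c) * (F + C c) * F).eval t ≠ 0 := by
    by_contra hcon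
    push Not at hcon
    exact hh (eq_zero_of_infinite_isRoot _ (Set.infinite_of_forall_exists_gt fun x =>
      ⟨x + 1, hcon (x + 1), by omega⟩))
  simp only [eval_mul, eval_sub, eval_add, eval_C, mul_ne_zero_iff, sub_ne_zero] at ht
  obtain ⟨⟨ht1, ht2⟩, ht3⟩ := ht
  have hFt : F.eval t = f.eval (a * t) := by
    simp [hF_def, eval_comp]
  obtain ⟨m, hm⟩ : (a * t - 0) ∣ f.eval (a * t) - f.eval 0 := sub_dvd_eval_sub _ _ _
  set w : ℤ := 1 + Q * (t * m) with hw_def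
  have hfw : f.eval (a * t) = c * w := by
    have : f.eval (a * t) = c + (a * t - 0) * m := by rw [← hm, hc_def]; ring
    rw [this, hw_def, ha_def]
    ring
  have hw0 : w ≠ 0 := fun h => ht3 (by rw [hFt, hfw, h, mul_zero])
  have hw1 : w ≠ 1 := fun h => ht1 (by rw [hFt, hfw, h, mul_one])
  have hw2 : w ≠ -1 := fun h => ht2 (by rw [hFt, hfw, h]; ring)
  have hwabs : w.natAbs ≠ 1 := by
    intro h
    rcases Int.natAbs_eq w with h' | h' <;> rw [h] at h' <;> simp at h' <;> omega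
  obtain ⟨ℓ, hℓ, hℓw⟩ := Nat.exists_prime_and_dvd hwabs
  have hℓw' : (ℓ : ℤ) ∣ w := Int.natCast_dvd.mpr hℓw
  refine ⟨ℓ, hℓ, ?_, a * t, by rw [hfw]; exact Dvd.dvd.mul_left hℓw' c⟩
  by_contra hle
  have hle' : ℓ ≤ B := not_lt.mp hle
  have hdvdQ : (ℓ : ℤ) ∣ Q := by
    rw [hQ_def]
    exact_mod_cast (hℓ.dvd_factorial).mpr hle'
  have : (ℓ : ℤ) ∣ 1 := by
    have h3 : (ℓ : ℤ) ∣ w - Q * (t * m) := dvd_sub hℓw' (Dvd.dvd.mul_right hdvdQ _)
    simpa [hw_def] using h3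
  have : ℓ = 1 := by
    have := Int.natCast_dvd_natCast.mp (by simpa using this : ((ℓ : ℕ) : ℤ) ∣ ((1 : ℕ) : ℤ))
    exact Nat.dvd_one.mp this
  exact hℓ.one_lt.ne' this

/-- For a separable rational polynomial `g` there are an integer polynomial `f` with the same
roots (`f = d g`), and an integral Bezout identity `A f + B f' = D ≠ 0`. -/
theorem exists_int_bezout (g : ℚ[X]) (hg : g.Separable) :
    ∃ (f A B : ℤ[X]) (d D : ℤ), d ≠ 0 ∧ D ≠ 0 ∧ f.map (algebraMap ℤ ℚ) = d • g ∧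
      A * f + B * derivative f = C D := by
  obtain ⟨a, b, hab⟩ := hg
  obtain ⟨f, d, hd, hf⟩ := exists_int_poly g
  obtain ⟨A, e₁, he₁, hA⟩ := exists_int_poly a
  obtain ⟨B, e₂, he₂, hB⟩ := exists_int_poly b
  refine ⟨f, e₂ • A, e₁ • B, d, e₁ * e₂ * d, hd, mul_ne_zero (mul_ne_zero he₁ he₂) hd, hf, ?_⟩
  apply Polynomial.map_injective (algebraMap ℤ ℚ) (by exact Int.cast_injective)
  have hf' : (derivative f).map (algebraMap ℤ ℚ) = d • derivative g := by
    rw [← derivative_map, hf, derivative_smul]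
  simp only [Polynomial.map_add, Polynomial.map_mul, Polynomial.map_smul, hf, hf', hA, hB, map_C]
  calc e₂ • e₁ • a * d • g + e₁ • e₂ • b * d • derivative g
      = (e₁ * e₂ * d) • (a * g + b * derivative g) := by
        simp only [zsmul_eq_mul]
        push_cast
        ring
    _ = C ((algebraMap ℤ ℚ) (e₁ * e₂ * d)) := by
        rw [hab, zsmul_eq_mul, mul_one]
        simp

theorem aeval_intCast_padicInt (ℓ : ℕ) [Fact ℓ.Prime] (f : ℤ[X]) (n : ℤ) :
    aeval (n : ℤ_[ℓ]) f = ((f.eval n : ℤ) : ℤ_[ℓ]) := by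
  have := Polynomial.aeval_algebraMap_apply ℤ_[ℓ] n f
  simpa [Polynomial.coe_aeval_eq_eval] using this

/-- Hensel step: a root of `f` modulo a prime `ℓ` not dividing the Bezout constant `D` lifts to
a root in `ℤ_[ℓ]`. -/
theorem exists_padic_root (f A B : ℤ[X]) (D : ℤ) (hD : D ≠ 0)
    (hbez : A * f + B * derivative f = C D)
    (ℓ : ℕ) [Fact ℓ.Prime] (hℓD : D.natAbs < ℓ) (n : ℤ) (hn : (ℓ : ℤ) ∣ f.eval n) :
    ∃ z : ℤ_[ℓ], aeval z f = 0 := by
  have hev : A.eval n * f.eval n + B.eval n * (derivative f).eval n = D := by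
    have := congrArg (eval n) hbez
    simpa using this
  have hnd : ¬ (ℓ : ℤ) ∣ (derivative f).eval n := by
    intro h
    have h1 : (ℓ : ℤ) ∣ D := by rw [← hev]; exact dvd_add (hn.mul_left _) (h.mul_left _)
    have h2 : ℓ ∣ D.natAbs := Int.natCast_dvd.mp h1
    have h3 : ℓ ≤ D.natAbs := Nat.le_of_dvd (Int.natAbs_pos.mpr hD) h2
    omega
  have hlt : ‖aeval (n : ℤ_[ℓ]) f‖ < 1 := by
    rw [aeval_intCast_padicInt]
    exact (PadicInt.norm_int_lt_one_iff_dvd _).mpr hn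
  have heq : ‖aeval (n : ℤ_[ℓ]) (derivative f)‖ = 1 := by
    rw [aeval_intCast_padicInt]
    refine le_antisymm (PadicInt.norm_le_one _) (not_lt.mp fun h => hnd ?_)
    exact (PadicInt.norm_int_lt_one_iff_dvd _).mp h
  obtain ⟨z, hz, -⟩ := hensels_lemma (F := f) (a := (n : ℤ_[ℓ])) (by rw [heq]; simpa using hlt)
  exact ⟨z, hz⟩

/-- A field generated over `ℚ` by a root of `g` embeds into any field extension of `ℚ` in which
`g` has a root. -/
theorem nonempty_ringHom_of_root (F : Type*) [Field F] [NumberField F] (θ : F)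
    (hθ : IntermediateField.adjoin ℚ {θ} = ⊤) {K : Type*} [Field K] [Algebra ℚ K] (y : K)
    (hy : aeval y (minpoly ℚ θ) = 0) : Nonempty (F →+* K) := by
  have hint : IsIntegral ℚ θ := Algebra.IsIntegral.isIntegral θ
  let φ₀ : IntermediateField.adjoin ℚ {θ} →ₐ[ℚ] K :=
    (IntermediateField.algHomAdjoinIntegralEquiv ℚ hint).symm
      ⟨y, (mem_aroots.mpr ⟨minpoly.ne_zero hint, hy⟩)⟩
  let e₁ : F ≃ₐ[ℚ] (⊤ : IntermediateField ℚ F) := IntermediateField.topEquiv.symm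
  let e₂ : (⊤ : IntermediateField ℚ F) ≃ₐ[ℚ] IntermediateField.adjoin ℚ {θ} :=
    IntermediateField.equivOfEq hθ.symm
  exact ⟨((φ₀.comp e₂.toAlgHom).comp e₁.toAlgHom).toRingHom⟩

/-- **(G0) SUPPLY**: a number field embeds into `ℚ_[ℓ]` for infinitely many primes `ℓ`. -/
theorem infinite_padic_embeddings (F : Type*) [Field F] [NumberField F] :
    {ℓ : ℕ | ∃ _ : Fact ℓ.Prime, Nonempty (F →+* ℚ_[ℓ])}.Infinite := by
  obtain ⟨θ, hθ⟩ := Field.exists_primitive_element ℚ F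
  have hint : IsIntegral ℚ θ := Algebra.IsIntegral.isIntegral θ
  have hsep : (minpoly ℚ θ).Separable := Algebra.IsSeparable.isSeparable ℚ θ
  obtain ⟨f, A, B, d, D, hd, hD, hf, hbez⟩ := exists_int_bezout (minpoly ℚ θ) hsep
  have hdeg : 0 < f.natDegree := by
    have h1 : (f.map (algebraMap ℤ ℚ)).natDegree = f.natDegree :=
      natDegree_map_eq_of_injective (by exact Int.cast_injective) f
    have h2 : (d • minpoly ℚ θ).natDegree = (minpoly ℚ θ).natDegree := by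
      rw [zsmul_eq_mul, ← map_intCast (C : ℚ →+* ℚ[X]) d]
      exact natDegree_C_mul (by exact_mod_cast hd)
    rw [← h1, hf, h2]
    exact minpoly.natDegree_pos hint
  refine Set.infinite_of_forall_exists_gt fun a => ?_
  obtain ⟨ℓ, hℓ, hBℓ, n, hn⟩ := exists_prime_gt_dvd_eval f hdeg (max a D.natAbs)
  have : Fact ℓ.Prime := ⟨hℓ⟩
  obtain ⟨z, hz⟩ := exists_padic_root f A B D hD hbez ℓ
    (lt_of_le_of_lt (le_max_right _ _) hBℓ) n hn
  refine ⟨ℓ, ⟨⟨hℓ⟩, ?_⟩, lt_of_le_of_lt (le_max_left _ _) hBℓ⟩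
  refine nonempty_ringHom_of_root F θ hθ ((z : ℤ_[ℓ]) : ℚ_[ℓ]) ?_
  have h1 : aeval ((z : ℤ_[ℓ]) : ℚ_[ℓ]) f = 0 := by
    have := Polynomial.aeval_algebraMap_apply ℚ_[ℓ] z f
    rw [hz, map_zero] at this
    exact this
  have h2 : aeval ((z : ℤ_[ℓ]) : ℚ_[ℓ]) (f.map (algebraMap ℤ ℚ)) = 0 := by
    rw [aeval_map_algebraMap]; exact h1
  rw [hf, map_zsmul, zsmul_eq_mul] at h2
  rcases mul_eq_zero.mp h2 with h | h
  · exact absurd (by exact_mod_cast h) hd
  · exact h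

/-- An element of `ℚ_[ℓ]` integral over `ℤ` lies in `ℤ_[ℓ]`. -/
theorem norm_le_one_of_isIntegral {ℓ : ℕ} [Fact ℓ.Prime] {y : ℚ_[ℓ]} (hy : IsIntegral ℤ y) :
    ‖y‖ ≤ 1 := by
  have h1 : IsIntegral ℤ_[ℓ] y := hy.tower_top
  obtain ⟨z, hz⟩ := IsIntegrallyClosed.isIntegral_iff.mp h1
  rw [← hz]
  exact z.2

/-- **(G0) SUPPLY, integral part**: an embedding `F → ℚ_[ℓ]` maps the ring of integers into
`ℤ_[ℓ]`. -/
theorem exists_ringOfIntegers_hom {F : Type*} [Field F] [NumberField F] {ℓ : ℕ} [Fact ℓ.Prime]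
    (e : F →+* ℚ_[ℓ]) :
    ∃ ψ : 𝓞 F →+* ℤ_[ℓ], ∀ x, ((ψ x : ℤ_[ℓ]) : ℚ_[ℓ]) = e x := by
  have h : ∀ x : 𝓞 F, ‖e (x : F)‖ ≤ 1 := fun x =>
    norm_le_one_of_isIntegral (map_isIntegral_int e (RingOfIntegers.isIntegral_coe x))
  let ψ₀ : 𝓞 F → ℤ_[ℓ] := fun x => (⟨e (x : F), h x⟩ : ℤ_[ℓ])
  have hψ₀ : ∀ x, ((ψ₀ x : ℤ_[ℓ]) : ℚ_[ℓ]) = e (x : F) := fun x => rfl
  refine ⟨{ toFun := ψ₀
            map_one' := ?_
            map_mul' := ?_
            map_zero' := ?_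
            map_add' := ?_ }, fun x => rfl⟩
  · apply PadicInt.ext; rw [hψ₀]; simp
  · intro x y; apply PadicInt.ext; rw [PadicInt.coe_mul, hψ₀, hψ₀, hψ₀]; simp
  · apply PadicInt.ext; rw [hψ₀]; simp
  · intro x y; apply PadicInt.ext; rw [PadicInt.coe_add, hψ₀, hψ₀, hψ₀]; simp

end Fermat.Agent.DS.Endgame.Supply65
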